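import Fermat.Agent.BernsteinPolynomial.Main
import Mathlib.Algebra.Polynomial.FieldDivision
import Mathlib.Analysis.Analytic.Polynomial
import Mathlib.Analysis.Calculus.LineDeriv.IntegrationByParts
import Mathlib.Analysis.Calculus.ParametricIntegral
import Mathlib.Analysis.Complex.CauchyIntegral
import Mathlib.Analysis.Complex.Convex
import Mathlib.Analysis.Convex.PathConnected
import Mathlib.Analysis.Meromorphic.Order
import Mathlib.Analysis.SpecialFunctions.Pow.Deriv
import Mathlib.MeasureTheory.Measure.Lebesgue.EqHaar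
import Mathlib.Topology.Algebra.MvPolynomial

/-!
# The problem of Gelfand

For a polynomial `f ≥ 0` on `ℝⁿ` and a test function `φ` the integral `∫ f ^ s φ` continues
meromorphically to the whole plane: integrate the functional equation of Bernstein by parts.
-/

set_option autoImplicit false

noncomputable section

open MvPolynomial MeasureTheory Filter
open scoped Topology ContDiff

namespace Fermat.Agent.BernsteinPolynomial

variable {n : ℕ}

/-- Evaluation with coefficients moved along `ρ`, at a real point. -/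
def evPt {R A : Type*} [CommRing R] [NormedField A] [NormedAlgebra ℝ A] (ρ : R →+* A)
    (x : Fin n → ℝ) : MvPolynomial (Fin n) R →+* A :=
  eval₂Hom ρ fun i => algebraMap ℝ A (x i)

section evPt

variable {R A : Type*} [CommRing R] [NormedField A] [NormedAlgebra ℝ A] (ρ : R →+* A)

theorem hasLineDerivAt_evPt (g : MvPolynomial (Fin n) R) (x : Fin n → ℝ) (i : Fin n) :
    HasLineDerivAt ℝ (fun y => evPt ρ y g) (evPt ρ x (pderiv i g)) x (Pi.single i 1) := by
  classical
  unfold HasLineDerivAt
  induction g using MvPolynomial.induction_on with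
  | C r => simpa [evPt] using hasDerivAt_const (0 : ℝ) (ρ r)
  | add p q hp hq => simpa only [map_add] using hp.fun_add hq
  | mul_X p j hp =>
    have hj : HasDerivAt
        (fun t : ℝ => algebraMap ℝ A ((x + t • (Pi.single i 1 : Fin n → ℝ)) j))
        (algebraMap ℝ A ((Pi.single i 1 : Fin n → ℝ) j)) 0 := by
      have h1 : HasDerivAt (fun t : ℝ => (x + t • (Pi.single i 1 : Fin n → ℝ)) j)
          ((Pi.single i 1 : Fin n → ℝ) j) 0 := by
        simpa using (hasDerivAt_id (0 : ℝ)).mul_const ((Pi.single i 1 : Fin n → ℝ) j)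
          |>.const_add (x j)
      simpa [Algebra.algebraMap_eq_smul_one] using h1.smul_const (1 : A)
    refine ((hp.fun_mul hj).congr_deriv ?_).congr_of_eventuallyEq
      (Eventually.of_forall fun t => ?_)
    · simp only [evPt, pderiv_mul, map_add, map_mul, eval₂Hom_X', zero_smul, add_zero]
      congr 2
      rcases eq_or_ne i j with rfl | hij
      · simp
      · simp [pderiv_X_of_ne hij.symm, Pi.single_eq_of_ne hij.symm]
    · simp [evPt]

theorem continuous_evPt (g : MvPolynomial (Fin n) R) : Continuous fun x => evPt ρ x g := by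
  induction g using MvPolynomial.induction_on with
  | C r => simpa [evPt] using continuous_const
  | add p q hp hq => simp only [map_add]; exact hp.add hq
  | mul_X p j hp =>
    simp only [map_mul]
    refine hp.mul ?_
    simp only [evPt, eval₂Hom_X']
    exact (algebraMapCLM ℝ A).continuous.comp (continuous_apply j)

theorem contDiff_evPt (g : MvPolynomial (Fin n) R) : ContDiff ℝ ∞ fun x => evPt ρ x g := by
  induction g using MvPolynomial.induction_on with
  | C r => simpa [evPt] using contDiff_const
  | add p q hp hq => simp only [map_add]; exact hp.add hq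
  | mul_X p j hp =>
    simp only [map_mul]
    refine hp.mul ?_
    simp only [evPt, eval₂Hom_X']
    exact (algebraMapCLM ℝ A).contDiff.comp (contDiff_apply ℝ ℝ j)

end evPt

/-- Powers of a nonnegative differentiable function. -/
theorem hasDerivAt_ofReal_cpow {g : ℝ → ℝ} {g' : ℝ} {w : ℂ} (hg : HasDerivAt g g' 0)
    (hnn : ∀ t, 0 ≤ g t) (hw : 1 < w.re) :
    HasDerivAt (fun t => (g t : ℂ) ^ w) (w * (g 0 : ℂ) ^ (w - 1) * g') 0 := by
  have hw0 : w ≠ 0 := fun h => by simp [h] at hw; linarith
  rcases (hnn 0).eq_or_lt with h0 | h0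
  · have hw1 : w - 1 ≠ 0 := fun h => by rw [sub_eq_zero] at h; simp [h] at hw
    have hfun : ∀ t, (g t : ℂ) ^ w = (g t : ℂ) ^ (w - 1) * g t := fun t => by
      rcases eq_or_ne (g t : ℂ) 0 with ht | ht
      · simp [ht, hw0]
      · rw [Complex.cpow_sub _ _ ht, Complex.cpow_one, div_mul_cancel₀ _ ht]
    rw [← h0, Complex.ofReal_zero, Complex.zero_cpow hw1, mul_zero, zero_mul,
      hasDerivAt_iff_isLittleO]
    simp only [hfun, ← h0, Complex.ofReal_zero, smul_zero, sub_zero]
    have h1 : Tendsto (fun t => (g t : ℂ) ^ (w - 1)) (𝓝 0) (𝓝 0) := by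
      have hc : ContinuousAt (fun t => (g t : ℂ) ^ (w - 1)) 0 :=
        ((Complex.continuous_ofReal_cpow_const (by simpa using hw)).continuousAt).comp
          hg.continuousAt
      simpa [ContinuousAt, ← h0, Complex.zero_cpow hw1] using hc
    have h2 : (fun t => (g t : ℂ)) =O[𝓝 0] fun t : ℝ => t := by
      have := hg.isBigO_sub
      simp only [← h0, sub_zero] at this
      exact Complex.isBigO_ofReal_left.2 this
    simpa [Complex.zero_cpow hw0] using ((Asymptotics.isLittleO_one_iff ℝ).2 h1).mul_isBigO h2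
  · have := (hasDerivAt_ofReal_cpow_const h0.ne' hw0).scomp 0 hg
    simpa [Function.comp_def, mul_comm, mul_left_comm, mul_assoc] using this

/-- Test functions. -/
def IsTest (φ : (Fin n → ℝ) → ℂ) : Prop := ContDiff ℝ ∞ φ ∧ HasCompactSupport φ

/-- The derivative of a test function. -/
def testDeriv (i : Fin n) (φ : (Fin n → ℝ) → ℂ) (x : Fin n → ℝ) : ℂ :=
  fderiv ℝ φ x (Pi.single i 1)

theorem IsTest.testDeriv {φ : (Fin n → ℝ) → ℂ} (hφ : IsTest φ) (i : Fin n) :
    IsTest (testDeriv i φ) :=
  ⟨(hφ.1.fderiv_right le_rfl).clm_apply contDiff_const, hφ.2.fderiv_apply ℝ _⟩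

theorem IsTest.hasLineDerivAt {φ : (Fin n → ℝ) → ℂ} (hφ : IsTest φ) (i : Fin n) (x : Fin n → ℝ) :
    HasLineDerivAt ℝ φ (BernsteinPolynomial.testDeriv i φ x) x (Pi.single i 1) :=
  ((hφ.1.differentiable (by simp)) x).hasFDerivAt.hasLineDerivAt _

variable (f : MvPolynomial (Fin n) ℝ)

/-- The value of `f`. -/
abbrev val (x : Fin n → ℝ) : ℝ := MvPolynomial.eval x f

/-- `∫ f ^ s φ`. -/
def zetaInt (φ : (Fin n → ℝ) → ℂ) (s : ℂ) : ℂ := ∫ x, (val f x : ℂ) ^ s * φ x

/-- Specialising `s`. -/
abbrev atS (s : ℂ) : Polynomial ℝ →+* ℂ := (Polynomial.aeval s).toRingHom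

theorem evPt_map_C (s : ℂ) (x : Fin n → ℝ) :
    evPt (atS s) x (MvPolynomial.map Polynomial.C f) = (val f x : ℂ) := by
  rw [evPt, coe_eval₂Hom, eval₂_map, show (atS s).comp Polynomial.C = Complex.ofRealHom from
    RingHom.ext fun r => by simp]
  exact (eval₂_comp Complex.ofRealHom x f).symm

/-- `∂^l (f ^ w)`. -/
def derivPow (l : List (Fin n)) (w : ℂ) (x : Fin n → ℝ) : ℂ :=
  (val f x : ℂ) ^ (w - l.length) * evPt (atS w) x (numer f l)

theorem continuous_derivPow (l : List (Fin n)) {w : ℂ} (hw : (l.length : ℝ) < w.re) :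
    Continuous (derivPow f l w) :=
  ((Complex.continuous_ofReal_cpow_const (by simpa using hw)).comp
    (MvPolynomial.continuous_eval f)).mul (continuous_evPt _ _)

theorem hasLineDerivAt_derivPow (hf : ∀ x, 0 ≤ val f x) (l : List (Fin n)) (i : Fin n) {w : ℂ}
    (hw : (l.length : ℝ) + 1 < w.re) (x : Fin n → ℝ) :
    HasLineDerivAt ℝ (derivPow f l w) (derivPow f (i :: l) w x) x (Pi.single i 1) := by
  have hv : ∀ y, evPt (RingHom.id ℝ) y f = val f y := fun y => rfl
  have h1 : HasDerivAt (fun t : ℝ => val f (x + t • Pi.single i 1))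
      (evPt (RingHom.id ℝ) x (pderiv i f)) 0 := by
    simpa [HasLineDerivAt, hv] using hasLineDerivAt_evPt (RingHom.id ℝ) f x i
  have hw' : 1 < (w - l.length).re := by simp; linarith
  have h2 := (hasDerivAt_ofReal_cpow h1 (fun t => hf _) hw').fun_mul
    (hasLineDerivAt_evPt (atS w) (numer f l) x i)
  simp only [zero_smul, add_zero] at h2
  refine h2.congr_deriv ?_
  have hwl : w - l.length ≠ 0 := fun h => by rw [h] at hw'; simp at hw'; linarith
  have hpd : evPt (atS w) x (pderiv i (MvPolynomial.map Polynomial.C f)) =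
      (evPt (RingHom.id ℝ) x (pderiv i f) : ℂ) := by
    rw [pderiv_map, evPt_map_C]
    rfl
  have hsplit : (val f x : ℂ) ^ (w - l.length) =
      (val f x : ℂ) ^ (w - (l.length + 1 : ℕ)) * val f x := by
    rcases eq_or_ne (val f x : ℂ) 0 with h0 | h0
    · simp [h0, hwl]
    · rw [show w - l.length = w - (l.length + 1 : ℕ) + 1 by push_cast; ring,
        Complex.cpow_add _ _ h0, Complex.cpow_one]
  rw [show w - l.length - 1 = w - ((l.length + 1 : ℕ) : ℂ) by push_cast; ring, hsplit, derivPow,
    List.length_cons, numer, map_add, map_mul, map_mul, map_mul, map_sub, evPt_map_C, hpd,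
    map_natCast]
  simp only [evPt, eval₂Hom_C, AlgHom.toRingHom_eq_coe, RingHom.coe_coe, Polynomial.aeval_X]
  ring

/-- Integration by parts moves the derivatives to the test function. -/
theorem exists_test_integral (hf : ∀ x, 0 ≤ val f x) (l : List (Fin n)) :
    ∀ ψ, IsTest ψ → ∃ ψ', IsTest ψ' ∧ ∀ w : ℂ, (l.length : ℝ) < w.re →
      ∫ x, derivPow f l w x * ψ x = zetaInt f ψ' w := by
  induction l with
  | nil =>
    exact fun ψ hψ => ⟨ψ, hψ, fun w _ => by simp [derivPow, zetaInt, numer]⟩
  | cons i l ih =>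
    intro ψ hψ
    obtain ⟨ψ', hψ', h⟩ := ih _ (hψ.testDeriv i)
    refine ⟨-ψ', ⟨hψ'.1.neg, hψ'.2.neg⟩, fun w hw => ?_⟩
    simp only [List.length_cons, Nat.cast_add, Nat.cast_one] at hw
    have hint : ∀ g u : (Fin n → ℝ) → ℂ, Continuous g → IsTest u →
        Integrable fun x => g x * u x := fun g u hg hu =>
      (hg.mul hu.1.continuous).integrable_of_hasCompactSupport hu.2.mul_left
    have hparts := integral_bilinear_hasLineDerivAt_right_eq_neg_left_of_integrable
      (μ := volume) (B := ContinuousLinearMap.mul ℝ ℂ) (v := Pi.single i 1)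
      (f := derivPow f l w) (f' := derivPow f (i :: l) w) (g := ψ) (g' := testDeriv i ψ)
      (hint _ _ (continuous_derivPow f _ (by simpa using hw)) hψ)
      (hint _ _ (continuous_derivPow f l (by linarith)) (hψ.testDeriv i))
      (hint _ _ (continuous_derivPow f l (by linarith)) hψ)
      (fun x _ => hasLineDerivAt_derivPow f hf l i hw x) fun x _ => hψ.hasLineDerivAt i x
    simp only [ContinuousLinearMap.mul_apply'] at hparts
    rw [← neg_eq_iff_eq_neg.2 hparts, h w (by linarith)]
    simp [zetaInt, integral_neg]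

theorem differentiableAt_zetaInt (hf : ∀ x, 0 ≤ val f x) {φ : (Fin n → ℝ) → ℂ} (hφ : IsTest φ)
    {s : ℂ} (hs : 0 < s.re) : DifferentiableAt ℂ (zetaInt f φ) s := by
  obtain ⟨M, hM⟩ := hφ.2.bddAbove_image (f := val f) (MvPolynomial.continuous_eval f).continuousOn
  set δ := s.re / 2 with hδ
  have hδ0 : 0 < δ := by linarith
  set B := max M 1 with hB
  set c := 1 / δ + B ^ (3 * δ) * B with hc
  have hcont : ∀ z : ℂ, 0 < z.re → Continuous fun x => (val f x : ℂ) ^ z * φ x := fun z hz =>
    ((Complex.continuous_ofReal_cpow_const hz).comp (MvPolynomial.continuous_eval f)).mul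
      hφ.1.continuous
  have hre : ∀ z ∈ Metric.ball s δ, δ < z.re ∧ z.re < 3 * δ := fun z hz => by
    have h := (Complex.abs_re_le_norm (z - s)).trans_lt (mem_ball_iff_norm.1 hz)
    rw [Complex.sub_re, abs_lt] at h
    constructor <;> linarith
  refine (hasDerivAt_integral_of_dominated_loc_of_deriv_le (μ := volume)
    (F := fun z x => (val f x : ℂ) ^ z * φ x)
    (F' := fun z x => (val f x : ℂ) ^ z * Complex.log (val f x) * φ x)
    (bound := fun x => c * ‖φ x‖) (Metric.ball_mem_nhds s hδ0) ?_ ?_ ?_ ?_ ?_ ?_).2.differentiableAt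
  · filter_upwards [Metric.ball_mem_nhds s hδ0] with z hz
    exact (hcont z (hδ0.trans (hre z hz).1)).aestronglyMeasurable
  · exact (hcont s hs).integrable_of_hasCompactSupport hφ.2.mul_left
  · exact ((((Complex.continuous_ofReal_cpow_const hs).comp
      (MvPolynomial.continuous_eval f)).measurable.mul (Complex.measurable_log.comp
        (Complex.measurable_ofReal.comp (MvPolynomial.continuous_eval f).measurable))).mul
      hφ.1.continuous.measurable).aestronglyMeasurable
  · refine Eventually.of_forall fun x z hz => ?_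
    by_cases hx : x ∈ tsupport φ
    · obtain ⟨h1, h2⟩ := hre z hz
      rw [norm_mul]
      refine mul_le_mul_of_nonneg_right ?_ (norm_nonneg _)
      have hB1 : 1 ≤ B := le_max_right _ _
      have hBc : 0 ≤ B ^ (3 * δ) * B := by positivity
      rcases (hf x).eq_or_lt with h0 | h0
      · have : 0 ≤ c := by positivity
        simpa [← h0] using this
      rw [norm_mul, Complex.norm_cpow_eq_rpow_re_of_pos h0, ← Complex.ofReal_log h0.le,
        Complex.norm_real, Real.norm_eq_abs, mul_comm]
      rcases le_total (val f x) 1 with h | h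
      · have := Real.abs_log_mul_self_rpow_lt (val f x) z.re h0 h (hδ0.trans h1)
        rw [abs_mul, abs_of_nonneg (Real.rpow_nonneg h0.le _)] at this
        have hd : 1 / z.re ≤ 1 / δ := one_div_le_one_div_of_le hδ0 h1.le
        linarith
      · have hxB : val f x ≤ B := (hM ⟨x, hx, rfl⟩).trans (le_max_left _ _)
        rw [abs_of_nonneg (Real.log_nonneg h), mul_comm]
        have h3 : val f x ^ z.re ≤ B ^ (3 * δ) :=
          (Real.rpow_le_rpow h0.le hxB (hδ0.trans h1).le).trans
            (Real.rpow_le_rpow_of_exponent_le hB1 h2.le)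
        have h4 : Real.log (val f x) ≤ B :=
          (Real.log_le_sub_one_of_pos h0).trans (by linarith)
        have := mul_le_mul h3 h4 (Real.log_nonneg h) (by positivity)
        have : 0 ≤ 1 / δ := by positivity
        linarith
    · simp [image_eq_zero_of_notMem_tsupport hx]
  · exact (continuous_const.mul hφ.1.continuous.norm).integrable_of_hasCompactSupport
      hφ.2.norm.mul_left
  · refine Eventually.of_forall fun x z hz => ?_
    have hz0 : z ≠ 0 := fun h => by have := (hre z hz).1; simp [h] at this; linarith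
    exact ((Complex.hasStrictDerivAt_const_cpow (Or.inr hz0)).hasDerivAt).mul_const (φ x)

theorem analyticAt_zetaInt (hf : ∀ x, 0 ≤ val f x) {φ : (Fin n → ℝ) → ℂ} (hφ : IsTest φ)
    {s : ℂ} (hs : 0 < s.re) : AnalyticAt ℂ (zetaInt f φ) s :=
  DifferentiableOn.analyticAt (s := {z : ℂ | 0 < z.re})
    (fun _ hz => (differentiableAt_zetaInt f hf hφ hz).differentiableWithinAt)
    ((isOpen_lt continuous_const Complex.continuous_re).mem_nhds hs)

/-- The functional equation for the integrals. -/
theorem exists_zetaInt_equation (hf : ∀ x, 0 ≤ val f x) (hf0 : f ≠ 0) :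
    ∃ b : Polynomial ℝ, b ≠ 0 ∧ ∀ φ, IsTest φ → ∃ (ι : Type) (_ : Fintype ι)
      (p : ι → Polynomial ℝ) (ψ : ι → (Fin n → ℝ) → ℂ), (∀ j, IsTest (ψ j)) ∧
        ∀ s : ℂ, 0 < s.re →
          Polynomial.aeval s b * zetaInt f φ s =
            ∑ j, Polynomial.aeval s (p j) * zetaInt f (ψ j) (s + 1) := by
  classical
  obtain ⟨b, hb, r, a, w, hid⟩ := exists_functional_equation f hf0
  refine ⟨b, hb, fun φ hφ => ?_⟩
  set L := Finset.univ.sup fun j => (w j).length with hL
  have hlenL : ∀ j, (w j).length ≤ L := fun j => Finset.le_sup (f := fun j => (w j).length)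
    (Finset.mem_univ j)
  set fA := MvPolynomial.map Polynomial.C f with hfA
  -- the polynomial identity in `ℝ[s][x]`
  have hident : fA * ∑ j, a j * fA ^ (L - (w j).length) *
      MvPolynomial.map (shiftS (1 : ℝ)) (numer f (w j)) = MvPolynomial.C b * fA ^ L := by
    set lhs := fA * ∑ j, a j * fA ^ (L - (w j).length) *
      MvPolynomial.map (shiftS (1 : ℝ)) (numer f (w j)) with hlhs
    have hev : ∀ m : ℕ, MvPolynomial.map (Polynomial.evalRingHom (m : ℝ)) lhs =
        MvPolynomial.map (Polynomial.evalRingHom (m : ℝ)) (MvPolynomial.C b * fA ^ L) := fun m => by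
      refine mul_left_cancel₀ (pow_ne_zero m hf0) ?_
      have h := congrArg (· * f ^ L) (hid m)
      simp only [Finset.sum_mul] at h
      simp only [hlhs, map_mul, map_sum, map_pow, map_C, hfA, map_eval_C,
        Polynomial.coe_evalRingHom, Finset.mul_sum]
      rw [show f ^ m * (MvPolynomial.C (b.eval (m : ℝ)) * f ^ L) =
        MvPolynomial.C (b.eval (m : ℝ)) * f ^ m * f ^ L by ring, ← h]
      refine Finset.sum_congr rfl fun j _ => ?_
      have hw := iterPderiv_pow f (m + 1) (w j)
      rw [MvPolynomial.map_map, show (Polynomial.evalRingHom (m : ℝ)).comp (shiftS 1) =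
        Polynomial.evalRingHom ((m + 1 : ℕ) : ℝ) from Polynomial.ringHom_ext
          (fun c => by simp [shiftS]) (by simp [shiftS]),
        show f ^ L = f ^ (w j).length * f ^ (L - (w j).length) by
          rw [← pow_add, Nat.add_sub_cancel' (hlenL j)]]
      linear_combination (-(MvPolynomial.map (Polynomial.evalRingHom (m : ℝ)) (a j) *
        f ^ (L - (w j).length))) * hw
    refine MvPolynomial.ext _ _ fun e => sub_eq_zero.1 (Polynomial.eq_zero_of_infinite_isRoot _
      (Set.infinite_of_injective_forall_mem (f := fun m : ℕ => (m : ℝ)) Nat.cast_injective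
        fun m => ?_))
    have := congrArg (MvPolynomial.coeff e) (hev m)
    rw [coeff_map, coeff_map] at this
    simpa [Polynomial.IsRoot, sub_eq_zero] using this
  choose ψ hψ hψint using fun (p : Σ j, (a j).support) =>
    exists_test_integral f hf (w p.1) (fun x => evPt (RingHom.id ℂ) x
      (monomial (p.2 : Fin n →₀ ℕ) 1) * φ x) ⟨(contDiff_evPt _ _).mul hφ.1, hφ.2.mul_left⟩
  refine ⟨Σ j, (a j).support, inferInstance, fun p => (a p.1).coeff (p.2 : Fin n →₀ ℕ), ψ, hψ, ?_⟩
  -- both sides are analytic: it is enough to argue far to the right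
  have hopen : IsOpen {s : ℂ | 0 < s.re} := isOpen_lt continuous_const Complex.continuous_re
  have hL1 : (0 : ℝ) < (L + 1 : ℕ) := by positivity
  intro s hs
  refine AnalyticOnNhd.eqOn_of_preconnected_of_eventuallyEq (U := {s : ℂ | 0 < s.re})
    (z₀ := ((L + 1 : ℕ) : ℂ))
    (f := fun s => Polynomial.aeval s b * zetaInt f φ s)
    (g := fun s => ∑ p : Σ j, (a j).support,
      Polynomial.aeval s ((a p.1).coeff (p.2 : Fin n →₀ ℕ)) * zetaInt f (ψ p) (s + 1))
    (fun z hz => (AnalyticAt.aeval_polynomial analyticAt_id b).mul (analyticAt_zetaInt f hf hφ hz))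
    (fun z hz => Finset.analyticAt_fun_sum _ fun p _ =>
      (AnalyticAt.aeval_polynomial analyticAt_id _).mul
      ((analyticAt_zetaInt f hf (hψ p) (by
        simp only [Set.mem_ofPred_eq] at hz ⊢; simp; linarith)).fun_comp
          (analyticAt_id.add analyticAt_const)))
    (convex_halfSpace_re_gt 0).isPreconnected (by simp; positivity) ?_ hs
  filter_upwards [(isOpen_lt continuous_const Complex.continuous_re).mem_nhds
    (show ((L + 1 : ℕ) : ℂ) ∈ {z : ℂ | (L : ℝ) < z.re} by simp)] with z hz
  replace hz : (L : ℝ) < z.re := hz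
  have hz0 : 0 < z.re := lt_of_le_of_lt (by positivity) hz
  have hzne : z ≠ 0 := fun h => by simp [h] at hz0
  have hlt : ∀ j, ((w j).length : ℝ) < (z + 1).re := fun j => by
    have : ((w j).length : ℝ) ≤ L := by exact_mod_cast hlenL j
    simp; linarith
  have hpoint : ∀ x, Polynomial.aeval z b * (val f x : ℂ) ^ z =
      ∑ j, evPt (atS z) x (a j) * derivPow f (w j) (z + 1) x := by
    intro x
    rcases eq_or_ne (val f x : ℂ) 0 with h0 | h0
    · rw [Finset.sum_eq_zero fun j _ => ?_]
      · simp [h0, hzne]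
      · have : z + 1 - (w j).length ≠ 0 := fun h => by
          have h' := congrArg Complex.re h
          simp at h'
          have := hlt j
          simp at this
          linarith
        simp [derivPow, h0, this]
    · have h := congrArg (evPt (atS z) x) hident
      simp only [map_mul, map_sum, map_pow, hfA, evPt_map_C, Finset.mul_sum] at h
      have hshift : ∀ g, evPt (atS z) x (MvPolynomial.map (shiftS (1 : ℝ)) g) =
          evPt (atS (z + 1)) x g := fun g => by
        simp only [evPt, coe_eval₂Hom, eval₂_map]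
        congr 1
        exact Polynomial.ringHom_ext (fun c => by simp [shiftS]) (by simp [shiftS])
      refine mul_right_cancel₀ (pow_ne_zero L h0) ?_
      have hb' : evPt (atS z) x (MvPolynomial.C b) = Polynomial.aeval z b := by simp [evPt]
      rw [mul_right_comm, ← hb', ← h, Finset.sum_mul, Finset.sum_mul]
      refine Finset.sum_congr rfl fun j _ => ?_
      rw [hshift, derivPow]
      have hpow : (val f x : ℂ) * (val f x : ℂ) ^ (L - (w j).length) * (val f x : ℂ) ^ z =
          (val f x : ℂ) ^ (z + 1 - (w j).length) * (val f x : ℂ) ^ L := by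
        rw [← pow_succ', ← Complex.cpow_natCast, ← Complex.cpow_natCast, ← Complex.cpow_add _ _ h0,
          ← Complex.cpow_add _ _ h0]
        congr 1
        push_cast [Nat.cast_sub (hlenL j)]
        ring
      linear_combination (evPt (atS z) x (a j) * evPt (atS (z + 1)) x (numer f (w j))) * hpow
  simp only [zetaInt, ← integral_const_mul]
  have hsum : ∀ x, Polynomial.aeval z b * ((val f x : ℂ) ^ z * φ x) =
      ∑ p : Σ j, (a j).support, Polynomial.aeval z ((a p.1).coeff (p.2 : Fin n →₀ ℕ)) *
        (derivPow f (w p.1) (z + 1) x *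
          (evPt (RingHom.id ℂ) x (monomial (p.2 : Fin n →₀ ℕ) 1) * φ x)) := fun x => by
    rw [← mul_assoc, hpoint, Finset.sum_mul, Fintype.sum_sigma]
    refine Finset.sum_congr rfl fun j _ => ?_
    conv_lhs => rw [(a j).as_sum, map_sum, Finset.sum_mul, Finset.sum_mul, ← Finset.sum_coe_sort]
    refine Finset.sum_congr rfl fun e _ => ?_
    simp only [evPt, eval₂Hom_monomial, RingHom.id_apply, AlgHom.toRingHom_eq_coe, RingHom.coe_coe]
    ring
  simp only [hsum]
  rw [integral_finsetSum _ fun p _ => ?_]
  · refine Finset.sum_congr rfl fun p _ => ?_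
    rw [integral_const_mul, integral_const_mul, hψint p _ (hlt p.1)]
    rfl
  · exact (continuous_const.mul ((continuous_derivPow f _ (hlt p.1)).mul
      ((continuous_evPt _ _).mul hφ.1.continuous))).integrable_of_hasCompactSupport
      hφ.2.mul_left.mul_left.mul_left

/-- Continuation to a half plane. -/
theorem exists_meromorphicOn_halfPlane (hf : ∀ x, 0 ≤ val f x) (hf0 : f ≠ 0) (N : ℕ) :
    ∀ φ, IsTest φ → ∃ g : ℂ → ℂ, MeromorphicOn g {s : ℂ | -(N : ℝ) < s.re} ∧
      ∀ s : ℂ, 0 < s.re → g s = zetaInt f φ s := by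
  obtain ⟨b, hb, hq⟩ := exists_zetaInt_equation f hf hf0
  induction N with
  | zero =>
    exact fun φ hφ => ⟨zetaInt f φ, fun s hs =>
      (analyticAt_zetaInt f hf hφ (by simpa using hs)).meromorphicAt, fun s _ => rfl⟩
  | succ N ih =>
    intro φ hφ
    classical
    obtain ⟨ι, _, p, ψ, hψ, heq⟩ := hq φ hφ
    choose g hg hgZ using fun j => ih _ (hψ j)
    let q : ℂ → ℂ := fun s => (∑ j, Polynomial.aeval s (p j) * g j (s + 1)) / Polynomial.aeval s b
    refine ⟨fun s => if 0 < s.re then zetaInt f φ s else q s, fun z hz => ?_, fun s hs => if_pos hs⟩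
    by_cases hzpos : 0 < z.re
    · refine (analyticAt_zetaInt f hf hφ hzpos).meromorphicAt.congr
        (eventually_nhdsWithin_of_eventually_nhds ?_)
      filter_upwards [(isOpen_lt continuous_const Complex.continuous_re).mem_nhds hzpos] with s hs
      exact (if_pos hs).symm
    · have hq' : MeromorphicAt q z := by
        refine MeromorphicAt.fun_div ?_ (AnalyticAt.aeval_polynomial analyticAt_id b).meromorphicAt
        refine MeromorphicAt.fun_sum fun j _ => ?_
        refine (AnalyticAt.aeval_polynomial analyticAt_id (p j)).meromorphicAt.fun_mul ?_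
        refine MeromorphicAt.comp_analyticAt (f := g j) (g := fun s => s + 1) (hg j _ ?_)
          (analyticAt_id.add analyticAt_const)
        simp only [Set.mem_ofPred_eq, Nat.cast_succ] at hz ⊢
        simp; linarith
      refine hq'.congr ?_
      have hfin : {s : ℂ | Polynomial.aeval s b = 0}.Finite := by
        simpa [Polynomial.IsRoot, ← Polynomial.eval_map_algebraMap] using
          Polynomial.finite_setOfPred_isRoot (Polynomial.map_ne_zero
            (f := algebraMap ℝ ℂ) hb)
      filter_upwards [(nhdsNE_le_cofinite z :) hfin.compl_mem_cofinite] with s hs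
      rcases em (0 < s.re) with h | h
      · rw [if_pos h]
        rw [Set.mem_compl_iff, Set.mem_ofPred_eq] at hs
        simp only [q]
        rw [div_eq_iff hs, mul_comm _ (Polynomial.aeval s b), heq s h]
        exact Finset.sum_congr rfl fun j _ => by rw [hgZ j (s + 1) (by simp; linarith)]
      · rw [if_neg h]

/-- **Bernstein**, solving the problem of Gelfand: meromorphic continuation of `∫ f ^ s φ`. -/
theorem exists_meromorphicOn_univ (hf : ∀ x, 0 ≤ val f x) (hf0 : f ≠ 0)
    {φ : (Fin n → ℝ) → ℂ} (hφ : IsTest φ) :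
    ∃ G : ℂ → ℂ, MeromorphicOn G Set.univ ∧ ∀ s : ℂ, 0 < s.re → G s = zetaInt f φ s := by
  choose g hg hgZ using fun N => exists_meromorphicOn_halfPlane f hf hf0 N φ hφ
  refine ⟨fun s => g (⌊-s.re⌋₊ + 2) s, fun z _ => ?_, fun s hs => hgZ _ s hs⟩
  set N := ⌊-z.re⌋₊ + 4 with hN
  have hzN : -(N : ℝ) + 2 < z.re := by
    have := Nat.lt_floor_add_one (-z.re)
    rw [hN]; push_cast; linarith
  have hagree : ∀ M : ℕ, -(M : ℝ) < z.re → M ≤ N → g N =ᶠ[𝓝[≠] z] g M := by
    intro M hM hMN
    set U := {s : ℂ | -(M : ℝ) < s.re} with hU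
    have hsub : U ⊆ {s : ℂ | -(N : ℝ) < s.re} := fun s hs => by
      simp only [Set.mem_ofPred_eq, hU] at hs ⊢
      have : (M : ℝ) ≤ N := by exact_mod_cast hMN
      linarith
    have hd : MeromorphicOn (fun s => g N s - g M s) U := fun s hs =>
      (hg N s (hsub hs)).fun_sub (hg M s hs)
    have h1 : (1 : ℂ) ∈ U := by
      have : (0 : ℝ) ≤ M := Nat.cast_nonneg M
      simp [hU]; linarith
    by_contra hne
    have hord : meromorphicOrderAt (fun s => g N s - g M s) z ≠ ⊤ := fun h => hne <| by
      filter_upwards [meromorphicOrderAt_eq_top_iff.1 h] with s hs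
      exact sub_eq_zero.1 hs
    refine hd.meromorphicOrderAt_ne_top_of_isPreconnected (convex_halfSpace_re_gt _).isPreconnected
      hM h1 hord (meromorphicOrderAt_eq_top_iff.2 ?_)
    refine eventually_nhdsWithin_of_eventually_nhds ?_
    filter_upwards [(isOpen_lt continuous_const Complex.continuous_re).mem_nhds
      (show (1 : ℂ) ∈ {s : ℂ | 0 < s.re} by simp)] with s hs
    rw [hgZ N s hs, hgZ M s hs, sub_self]
  refine (hg N z (by simp only [Set.mem_ofPred_eq]; linarith)).congr ?_
  have hall : ∀ᶠ s in 𝓝[≠] z, ∀ M ∈ Finset.range (N + 1), -(M : ℝ) < z.re → g N s = g M s := by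
    rw [Finset.eventually_all]
    intro M hM
    by_cases h : -(M : ℝ) < z.re
    · filter_upwards [hagree M h (Nat.lt_succ_iff.1 (Finset.mem_range.1 hM))] with s hs _ using hs
    · exact Eventually.of_forall fun s h' => absurd h' h
  filter_upwards [hall, nhdsWithin_le_nhds (Metric.ball_mem_nhds z one_half_pos)] with s hs hball
  have hre := (Complex.abs_re_le_norm (s - z)).trans_lt (mem_ball_iff_norm.1 hball)
  rw [Complex.sub_re, abs_lt] at hre
  have hfl := Nat.lt_floor_add_one (-s.re)
  refine hs _ (Finset.mem_range.2 ?_) (by push_cast; linarith)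
  have hle : ⌊-s.re⌋₊ ≤ ⌊-z.re + 1⌋₊ := Nat.floor_le_floor (by linarith)
  rcases le_or_gt 0 (-z.re) with h | h
  · rw [Nat.floor_add_one h] at hle; omega
  · have : ⌊-z.re + 1⌋₊ ≤ 1 := by
      refine Nat.floor_le_of_le ?_
      push_cast; linarith
    omega

end Fermat.Agent.BernsteinPolynomial
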