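import Mathlib.Algebra.CharZero.Defs
import Mathlib.LinearAlgebra.FiniteDimensional.Basic
import Mathlib.LinearAlgebra.FiniteDimensional.Lemmas
import Mathlib.LinearAlgebra.FreeModule.Finite.Matrix
import Mathlib.Tactic.NoncommRing

/-!
# The inequality of Bernstein

Representations of the canonical commutation relations on a filtered vector space grow at least
like a polynomial of degree `n`, hence those which grow like that have finite length.
-/

set_option autoImplicit false

noncomputable section

namespace Fermat.Agent.BernsteinPolynomial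

variable {K : Type*} [Field K] {V : Type*} [AddCommGroup V] [Module K V] {n : ℕ}

section products

variable {E : Type*} [Ring E] [Algebra K E]

/-- `A₀ ^ α₀ * A₁ ^ α₁ * ⋯`. -/
def powProd (A : Fin n → E) (α : Fin n → ℕ) : E :=
  ((List.finRange n).map fun j => A j ^ α j).prod

theorem pow_comm_scalar {a y : E} {r : K} (h : a * y - y * a = r • 1) (m : ℕ) :
    a ^ m * y - y * a ^ m = ((m : K) * r) • a ^ (m - 1) := by
  induction m with
  | zero => simp
  | succ m ih =>
    have : a ^ (m + 1) * y - y * a ^ (m + 1) =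
        a * (a ^ m * y - y * a ^ m) + (a * y - y * a) * a ^ m := by rw [pow_succ']; noncomm_ring
    rw [this, ih, h, mul_smul_comm, smul_mul_assoc, one_mul, Nat.add_sub_cancel]
    rcases m with _ | m
    · simp
    · rw [Nat.add_sub_cancel, ← pow_succ', ← add_smul]
      push_cast
      ring_nf

theorem powProd_comm (A : Fin n → E) (y : E) (r : K) (i : Fin n)
    (h : ∀ j, A j * y - y * A j = if j = i then r • 1 else 0) (α : Fin n → ℕ) :
    powProd A α * y - y * powProd A α =
      ((α i : K) * r) • powProd A (Function.update α i (α i - 1)) := by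
  suffices ∀ l : List (Fin n), l.Nodup →
      (l.map fun j => A j ^ α j).prod * y - y * (l.map fun j => A j ^ α j).prod =
        if i ∈ l then ((α i : K) * r) •
          (l.map fun j => A j ^ Function.update α i (α i - 1) j).prod else 0 by
    simpa [powProd] using this _ (List.nodup_finRange n)
  intro l hl
  induction l with
  | nil => simp
  | cons a l ih =>
    rw [List.nodup_cons] at hl
    set P := (l.map fun j => A j ^ α j).prod with hP
    have hsplit : A a ^ α a * P * y - y * (A a ^ α a * P) =
        A a ^ α a * (P * y - y * P) + (A a ^ α a * y - y * A a ^ α a) * P := by noncomm_ring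
    simp only [List.map_cons, List.prod_cons, List.mem_cons]
    rw [← hP, hsplit, ih hl.2]
    rcases eq_or_ne a i with rfl | hai
    · rw [if_neg hl.1, mul_zero, zero_add, if_pos (Or.inl rfl),
        pow_comm_scalar ((h a).trans (if_pos rfl)), smul_mul_assoc, Function.update_self, hP]
      congr 3
      refine List.map_congr_left fun j hj => ?_
      rw [Function.update_of_ne]
      rintro rfl
      exact hl.1 hj
    · rw [pow_comm_scalar (r := (0 : K)) (by rw [h a, if_neg hai, zero_smul]), mul_zero, zero_smul,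
        zero_mul, add_zero]
      simp only [Ne.symm hai, false_or, Function.update_of_ne hai]
      split_ifs
      · rw [mul_smul_comm]
      · rw [mul_zero]

end products

variable [CharZero K] {X D : Fin n → Module.End K V}
  (hrel : ∀ i j, D i * X j - X j * D i = if i = j then 1 else 0)
  (hX : ∀ i j, Commute (X i) (X j)) {F : ℕ → Submodule K V} (hF : Monotone F)
  (hXF : ∀ j i, (F i).map (X j) ≤ F (i + 1)) (hDF : ∀ j i, (F i).map (D j) ≤ F (i + 1))

/-- The sum of the exponents. -/
def degree (p : (Fin n → ℕ) × (Fin n → ℕ)) : ℕ := (∑ j, p.1 j) + ∑ j, p.2 j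

/-- The operator `X ^ α * D ^ β`. -/
def monOp (X D : Fin n → Module.End K V) (p : (Fin n → ℕ) × (Fin n → ℕ)) : Module.End K V :=
  powProd X p.1 * powProd D p.2

theorem sum_update {α : Fin n → ℕ} {i : Fin n} (h : α i ≠ 0) :
    ∑ j, Function.update α i (α i - 1) j + 1 = ∑ j, α j := by
  rw [Finset.sum_update_of_mem (Finset.mem_univ i), ← Finset.add_sum_erase _ _ (Finset.mem_univ i),
    Finset.sdiff_singleton_eq_erase]
  omega

include hX in
omit [CharZero K] in
theorem powProd_commute (α : Fin n → ℕ) (j : Fin n) : Commute (powProd X α) (X j) := by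
  refine Commute.list_prod_left _ _ fun x hx => ?_
  obtain ⟨i, -, rfl⟩ := List.mem_map.1 hx
  exact (hX i j).pow_left _

include hF in
omit [CharZero K] in
/-- One step of the induction: a commutator lowers the degree. -/
theorem commutator_step {i₀ i : ℕ} {S : Finset ((Fin n → ℕ) × (Fin n → ℕ))}
    {a : (Fin n → ℕ) × (Fin n → ℕ) → K}
    (ih : ∀ (S : Finset ((Fin n → ℕ) × (Fin n → ℕ))), (∀ p ∈ S, degree p ≤ i) →
      ∀ a : (Fin n → ℕ) × (Fin n → ℕ) → K,
        (∀ w ∈ F (i₀ + i), (∑ p ∈ S, a p • monOp X D p) w = 0) → ∀ p ∈ S, a p = 0)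
    (h : ∀ w ∈ F (i₀ + (i + 1)), (∑ p ∈ S, a p • monOp X D p) w = 0) (y : Module.End K V)
    (hy : (F (i₀ + i)).map y ≤ F (i₀ + i + 1))
    (c : (Fin n → ℕ) × (Fin n → ℕ) → K)
    (φ : (Fin n → ℕ) × (Fin n → ℕ) → (Fin n → ℕ) × (Fin n → ℕ))
    (hc : ∀ p ∈ S, monOp X D p * y - y * monOp X D p = c p • monOp X D (φ p))
    (hφ : Set.InjOn φ {p | c p ≠ 0}) (hdeg : ∀ p ∈ S, c p ≠ 0 → degree (φ p) ≤ i) :
    ∀ p ∈ S, c p ≠ 0 → a p = 0 := by
  classical
  intro p hp hcp
  let S' := S.filter fun q => c q ≠ 0
  have hres := ih (S'.image φ) (fun q hq => by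
      obtain ⟨r, hr, rfl⟩ := Finset.mem_image.1 hq
      obtain ⟨hrS, hrc⟩ := Finset.mem_filter.1 hr
      exact hdeg r hrS hrc)
    (fun q => ∑ r ∈ S'.filter (fun r => φ r = q), a r * c r) (fun w hw => ?_) (φ p)
    (Finset.mem_image_of_mem φ (Finset.mem_filter.2 ⟨hp, hcp⟩))
  · rw [Finset.sum_eq_single p] at hres
    · exact (mul_eq_zero.1 hres).resolve_right hcp
    · intro r hr hrp
      simp only [S', Finset.mem_filter] at hr
      exact absurd (hφ hr.1.2 hcp hr.2) hrp
    · intro hnot
      exact (hnot (Finset.mem_filter.2 ⟨Finset.mem_filter.2 ⟨hp, hcp⟩, rfl⟩)).elim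
  · have h1 := h _ (hy ⟨w, hw, rfl⟩)
    have h2 := congrArg y (h w (hF (Nat.le_succ _) hw))
    simp only [LinearMap.sum_apply, LinearMap.smul_apply, map_sum, map_smul, map_zero] at h1 h2
    have h3 : ∑ r ∈ S', (a r * c r) • monOp X D (φ r) w = 0 := by
      simp only [S']
      rw [Finset.sum_filter_of_ne (p := fun q => c q ≠ 0) fun r _ hne hcr => hne
        (by rw [hcr, mul_zero, zero_smul])]
      rw [← sub_zero (0 : V)]
      conv_rhs => arg 1; rw [← h1]
      conv_rhs => arg 2; rw [← h2]
      rw [← Finset.sum_sub_distrib]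
      refine Finset.sum_congr rfl fun r hr => ?_
      rw [mul_smul, ← smul_sub, ← LinearMap.smul_apply, ← hc r hr]
      rfl
    rw [LinearMap.sum_apply]
    refine Eq.trans (Eq.trans ?_ (Finset.sum_fiberwise_of_maps_to (g := φ) (t := S'.image φ)
      (fun r hr => Finset.mem_image_of_mem φ hr) fun r => (a r * c r) • monOp X D (φ r) w)) h3
    refine Finset.sum_congr rfl fun q _ => ?_
    rw [LinearMap.smul_apply, Finset.sum_smul]
    exact Finset.sum_congr rfl fun r hr => by rw [(Finset.mem_filter.1 hr).2]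

omit [CharZero K] in
theorem update_pred_injOn (j : Fin n) :
    Set.InjOn (fun α : Fin n → ℕ => Function.update α j (α j - 1)) {α | α j ≠ 0} := by
  intro α (hα : α j ≠ 0) β (hβ : β j ≠ 0) h
  funext l
  have hl := congrFun h l
  rcases eq_or_ne l j with rfl | hlj
  · simp only [Function.update_self] at hl
    omega
  · simpa [Function.update_of_ne hlj] using hl

include hrel hX hF hXF hDF in
theorem eq_zero_of_kills {i₀ : ℕ} {v : V} (hv : v ∈ F i₀) (hv0 : v ≠ 0) (i : ℕ)
    (S : Finset ((Fin n → ℕ) × (Fin n → ℕ))) (hS : ∀ p ∈ S, degree p ≤ i)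
    (a : (Fin n → ℕ) × (Fin n → ℕ) → K)
    (h : ∀ w ∈ F (i₀ + i), (∑ p ∈ S, a p • monOp X D p) w = 0) : ∀ p ∈ S, a p = 0 := by
  classical
  -- it is enough to see that only the constant term may survive
  suffices hne : ∀ p ∈ S, p ≠ 0 → a p = 0 by
    intro p hp
    rcases eq_or_ne p 0 with rfl | hp0
    · have hv' := h v (hF (Nat.le_add_right _ _) hv)
      rw [Finset.sum_eq_single 0 (fun q hq hq0 => by rw [hne q hq hq0, zero_smul])
        (fun h' => absurd hp h')] at hv'
      simpa [monOp, powProd, hv0] using hv'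
    · exact hne p hp hp0
  induction i generalizing S a with
  | zero =>
    intro p hp hp0
    refine absurd ?_ hp0
    have hd : degree p = 0 := Nat.le_zero.1 (hS p hp)
    simp only [degree, Nat.add_eq_zero_iff, Finset.sum_eq_zero_iff, Finset.mem_univ,
      true_implies] at hd
    exact Prod.ext (funext hd.1) (funext hd.2)
  | succ i ihne =>
    have ih : ∀ (S : Finset ((Fin n → ℕ) × (Fin n → ℕ))), (∀ p ∈ S, degree p ≤ i) →
        ∀ a : (Fin n → ℕ) × (Fin n → ℕ) → K,
          (∀ w ∈ F (i₀ + i), (∑ p ∈ S, a p • monOp X D p) w = 0) → ∀ p ∈ S, a p = 0 := by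
      intro S hS a h p hp
      rcases eq_or_ne p 0 with rfl | hp0
      · have hv' := h v (hF (Nat.le_add_right _ _) hv)
        rw [Finset.sum_eq_single 0 (fun q hq hq0 => by rw [ihne S hS a h q hq hq0, zero_smul])
          (fun h' => absurd hp h')] at hv'
        simpa [monOp, powProd, hv0] using hv'
      · exact ihne S hS a h p hp hp0
    have hbeta : ∀ p ∈ S, ∀ j, p.2 j ≠ 0 → a p = 0 := fun p hp j hpj =>
      commutator_step hF ih h (X j) (hXF j _) (fun q => (q.2 j : K))
        (fun q => (q.1, Function.update q.2 j (q.2 j - 1)))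
        (fun q _ => by
          rw [monOp, monOp, mul_assoc, ← mul_assoc (X j), (powProd_commute hX q.1 j).eq.symm,
            mul_assoc, ← mul_sub, powProd_comm D (X j) (1 : K) j (fun l => by
              rw [hrel]; split_ifs <;> simp) q.2, mul_smul_comm, mul_one])
        (fun q hq q' hq' e => Prod.ext (congrArg Prod.fst e :)
          (update_pred_injOn j (Nat.cast_ne_zero.1 hq) (Nat.cast_ne_zero.1 hq')
            (congrArg Prod.snd e :)))
        (fun q hq hqj => by
          have h1 := hS q hq
          have h2 := sum_update (Nat.cast_ne_zero.1 hqj)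
          simp only [degree] at h1 ⊢
          omega) p hp (Nat.cast_ne_zero.2 hpj)
    intro p hp hp0
    by_contra hap
    have hp2 : p.2 = 0 := funext fun j => by_contra fun hj => hap (hbeta p hp j hj)
    obtain ⟨j, hj⟩ : ∃ j, p.1 j ≠ 0 := by
      by_contra! hall
      exact hp0 (Prod.ext (funext hall) hp2)
    have hβ0 : ∀ q ∈ S.filter (fun q => a q ≠ 0), q.2 = 0 := fun q hq => funext fun l =>
      by_contra fun hl => (Finset.mem_filter.1 hq).2 (hbeta q (Finset.mem_filter.1 hq).1 l hl)
    refine hap (commutator_step hF ih (S := S.filter fun q => a q ≠ 0) (a := a) (fun w hw => ?_)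
      (D j) (hDF j _) (fun q => -(q.1 j : K))
      (fun q => (Function.update q.1 j (q.1 j - 1), q.2))
      (fun q hq => ?_) (fun q hq q' hq' e => Prod.ext
        (update_pred_injOn j (Nat.cast_ne_zero.1 (neg_ne_zero.1 hq))
          (Nat.cast_ne_zero.1 (neg_ne_zero.1 hq')) (congrArg Prod.fst e :))
        (congrArg Prod.snd e :))
      (fun q hq hqj => ?_) p (Finset.mem_filter.2 ⟨hp, hap⟩)
      (neg_ne_zero.2 (Nat.cast_ne_zero.2 hj)))
    · rw [Finset.sum_filter_of_ne (p := fun q => a q ≠ 0) fun q _ hne hq => hne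
        (by rw [hq, zero_smul])]
      exact h w hw
    · have h1 : powProd D q.2 = 1 := by simp [hβ0 q hq, powProd]
      simp only [monOp, h1, mul_one]
      rw [powProd_comm X (D j) (-1 : K) j (fun l => by
        rw [← neg_sub, hrel]
        rcases eq_or_ne l j with rfl | hlj
        · simp
        · simp [hlj, hlj.symm]) q.1, mul_neg_one]
    · have h1 := hS q (Finset.mem_filter.1 hq).1
      have h2 := sum_update (Nat.cast_ne_zero.1 (neg_ne_zero.1 hqj))
      simp only [degree] at h1 ⊢
      omega

variable [∀ i, Module.Finite K (F i)]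

include hrel hX hF hXF hDF in
/-- **Bernstein's inequality**. -/
theorem pow_le_finrank {i₀ : ℕ} (h0 : F i₀ ≠ ⊥) (t : ℕ) :
    (t + 1) ^ n ≤ Module.finrank K (F (i₀ + 4 * n * t)) := by
  classical
  obtain ⟨v, hv, hv0⟩ := (Submodule.ne_bot_iff _).1 h0
  have hXD : ∀ i (p : (Fin n → ℕ) × (Fin n → ℕ)), ∀ w ∈ F i,
      monOp X D p w ∈ F (i + degree p) := by
    have hlist : ∀ (A : Fin n → Module.End K V), (∀ j i, (F i).map (A j) ≤ F (i + 1)) →
        ∀ (α : Fin n → ℕ) i, ∀ w ∈ F i, powProd A α w ∈ F (i + ∑ j, α j) := by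
      intro A hA α i w hw
      have hpow : ∀ j m i, ∀ w ∈ F i, (A j ^ m) w ∈ F (i + m) := by
        intro j m
        induction m with
        | zero => intro i w hw; simpa using hw
        | succ m ih =>
          intro i w hw
          rw [pow_succ', Module.End.mul_apply]
          exact hA j (i + m) ⟨_, ih i w hw, rfl⟩
      suffices ∀ l : List (Fin n), ((l.map fun j => A j ^ α j).prod) w ∈ F (i + (l.map α).sum) by
        have := this (List.finRange n)
        rwa [← List.ofFn_eq_map, List.sum_ofFn] at this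
      intro l
      induction l with
      | nil => simpa using hw
      | cons a l ih =>
        simp only [List.map_cons, List.prod_cons, Module.End.mul_apply, List.sum_cons]
        rw [add_comm (α a), ← add_assoc]
        exact hpow a _ _ _ ih
    intro i p w hw
    rw [monOp, Module.End.mul_apply, degree, add_comm (∑ j, p.1 j), ← add_assoc]
    exact hlist X hXF p.1 _ _ (hlist D hDF p.2 i w hw)
  let box : Finset ((Fin n → ℕ) × (Fin n → ℕ)) :=
    (Fintype.piFinset fun _ => Finset.range (t + 1)) ×ˢ
      Fintype.piFinset fun _ => Finset.range (t + 1)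
  have hbox : ∀ p ∈ box, degree p ≤ 2 * n * t := fun p hp => by
    simp only [box, Finset.mem_product, Fintype.mem_piFinset, Finset.mem_range] at hp
    have h1 : ∑ j, p.1 j ≤ ∑ _j : Fin n, t :=
      Finset.sum_le_sum fun j _ => Nat.lt_succ_iff.1 (hp.1 j)
    have h2 : ∑ j, p.2 j ≤ ∑ _j : Fin n, t :=
      Finset.sum_le_sum fun j _ => Nat.lt_succ_iff.1 (hp.2 j)
    simp only [Finset.sum_const, Finset.card_univ, Fintype.card_fin, smul_eq_mul] at h1 h2
    rw [degree, mul_assoc, two_mul]
    omega
  let i₁ := i₀ + 2 * n * t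
  let i₂ := i₀ + 4 * n * t
  have hto : ∀ p : box, ∀ w ∈ F i₁, monOp X D p w ∈ F i₂ := fun p w hw =>
    hF (by have := hbox p p.2; simp only [i₁, i₂]; nlinarith) (hXD i₁ p w hw)
  have hlin : LinearIndependent K fun p : box =>
      ((monOp X D p).restrict (p := F i₁) (q := F i₂) (hto p)) := by
    refine Fintype.linearIndependent_iff.2 fun a ha p => ?_
    have := eq_zero_of_kills hrel hX hF hXF hDF hv hv0 (2 * n * t) box hbox
      (fun q => if h : q ∈ box then a ⟨q, h⟩ else 0) (fun w hw => ?_) p p.2
    · simpa using this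
    · have h := congrArg Subtype.val (LinearMap.congr_fun ha ⟨w, hw⟩)
      simp only [LinearMap.sum_apply, LinearMap.smul_apply, LinearMap.restrict_apply,
        AddSubmonoidClass.coe_finsetSum, SetLike.val_smul, LinearMap.zero_apply,
        ZeroMemClass.coe_zero] at h
      rw [LinearMap.sum_apply, ← h, ← Finset.sum_coe_sort box]
      simp
  have hcard := hlin.fintype_card_le_finrank
  rw [Fintype.card_coe, Module.finrank_linearMap, Finset.card_product, Fintype.card_piFinset,
    Finset.prod_const, Finset.card_range, Finset.card_univ, Fintype.card_fin] at hcard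
  have hmono : Module.finrank K (F i₁) ≤ Module.finrank K (F i₂) :=
    Submodule.finrank_mono (hF (by simp only [i₁, i₂]; nlinarith))
  exact Nat.mul_self_le_mul_self_iff.1 (hcard.trans (Nat.mul_le_mul_right _ hmono))

include hrel hX hF hXF hDF in
/-- Modules of minimal growth have finite length: a strictly decreasing chain of stable subspaces
has at most `c (4 n + 1) ^ n` steps. -/
theorem exists_chain_eq (c : ℕ) (hexh : ∀ v : V, ∃ i, v ∈ F i)
    (hgrowth : ∀ i, Module.finrank K (F i) ≤ c * (i + 1) ^ n) (N : ℕ → Submodule K V)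
    (hN : Antitone N) (hNX : ∀ k j, ∀ v ∈ N k, X j v ∈ N k)
    (hND : ∀ k j, ∀ v ∈ N k, D j v ∈ N k) : ∃ k, N k ≤ N (k + 1) := by
  classical
  by_contra! hstrict
  choose v hv hv' using fun k => SetLike.not_le_iff_exists.1 (hstrict k)
  choose i₀ hi₀ using fun k => hexh (v k)
  set L := c * (4 * n + 1) ^ n + 1 with hL
  set I₀ := (Finset.range L).sup i₀ with hI₀
  set I := I₀ + 4 * n * I₀ with hI
  have key : ∀ k < L, Module.finrank K ↥(F I ⊓ N (k + 1)) + (I₀ + 1) ^ n ≤
      Module.finrank K ↥(F I ⊓ N k) := by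
    intro k hk
    set Q := N (k + 1)
    have hQX : ∀ j, Q ≤ Q.comap (X j) := fun j w hw => hNX _ j w hw
    have hQD : ∀ j, Q ≤ Q.comap (D j) := fun j w hw => hND _ j w hw
    let G : ℕ → Submodule K (V ⧸ Q) := fun i => (F i ⊓ N k).map Q.mkQ
    have : ∀ i, Module.Finite K ↥(F i ⊓ N k) := fun i =>
      Submodule.finiteDimensional_of_le inf_le_left
    have : ∀ i, Module.Finite K (G i) := fun i => inferInstance
    have hb := pow_le_finrank (X := fun j => Q.mapQ Q (X j) (hQX j))
      (D := fun j => Q.mapQ Q (D j) (hQD j)) (F := G)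
      (fun i j => by
        refine Submodule.linearMap_qext _ (LinearMap.ext fun w => ?_)
        have := LinearMap.congr_fun (hrel i j) w
        simp only [LinearMap.sub_apply, Module.End.mul_apply] at this
        simp only [LinearMap.coe_comp, Function.comp_apply, Submodule.mkQ_apply,
          LinearMap.sub_apply, Module.End.mul_apply, Submodule.mapQ_apply,
          ← Submodule.Quotient.mk_sub, this]
        split_ifs <;> simp)
      (fun i j => by
        refine Submodule.linearMap_qext _ (LinearMap.ext fun w => ?_)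
        exact congrArg Submodule.Quotient.mk (LinearMap.congr_fun (hX i j).eq w))
      (fun i i' h => Submodule.map_mono (inf_le_inf_right _ (hF h)))
      (fun j i => by
        rintro _ ⟨_, ⟨w, hw, rfl⟩, rfl⟩
        exact ⟨X j w, ⟨hXF j i ⟨w, hw.1, rfl⟩, hNX k j w hw.2⟩, rfl⟩)
      (fun j i => by
        rintro _ ⟨_, ⟨w, hw, rfl⟩, rfl⟩
        exact ⟨D j w, ⟨hDF j i ⟨w, hw.1, rfl⟩, hND k j w hw.2⟩, rfl⟩)
      (i₀ := I₀) (fun h => hv' k (by
        have hmem : Q.mkQ (v k) ∈ G I₀ :=
          ⟨v k, ⟨hF (Finset.le_sup (Finset.mem_range.2 hk)) (hi₀ k), hv k⟩, rfl⟩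
        rwa [h, Submodule.mem_bot, Submodule.mkQ_apply, Submodule.Quotient.mk_eq_zero] at hmem))
      I₀
    let P := F I ⊓ N k
    have hrn := LinearMap.finrank_range_add_finrank_ker (Q.mkQ.comp P.subtype)
    rw [LinearMap.range_comp, Submodule.range_subtype, LinearMap.ker_comp, Submodule.ker_mkQ] at hrn
    have hker : Module.finrank K ↥(Q.comap P.subtype) = Module.finrank K ↥(F I ⊓ Q) := by
      have hle : F I ⊓ Q ≤ P := fun w hw => ⟨hw.1, hN (Nat.le_succ k) hw.2⟩
      rw [← (Submodule.comapSubtypeEquivOfLe hle).finrank_eq]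
      rw [show Q.comap P.subtype = (F I ⊓ Q).comap P.subtype from
        Submodule.ext fun w => ⟨fun h => ⟨w.2.1, h⟩, fun h => h.2⟩]
    rw [hker] at hrn
    rw [← hrn, add_comm]
    exact Nat.add_le_add_right hb _
  have hsum : ∀ k ≤ L, Module.finrank K ↥(F I ⊓ N k) + k * (I₀ + 1) ^ n ≤
      Module.finrank K (F I) := by
    intro k
    induction k with
    | zero => intro _; simpa using Submodule.finrank_mono inf_le_left
    | succ k ih =>
      intro hk
      have h1 := key k (by omega)
      have h2 := ih (by omega)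
      rw [Nat.succ_mul]
      omega
  have h1 := (Nat.le_add_left _ _).trans ((hsum L le_rfl).trans (hgrowth I))
  have h2 : (I + 1) ^ n ≤ (4 * n + 1) ^ n * (I₀ + 1) ^ n := by
    rw [← mul_pow]
    exact Nat.pow_le_pow_left (by rw [hI]; nlinarith) n
  have h3 : 0 < (I₀ + 1) ^ n := by positivity
  rw [hL, Nat.succ_mul] at h1
  have h4 := h1.trans (Nat.mul_le_mul_left c h2)
  rw [← mul_assoc] at h4
  omega

end Fermat.Agent.BernsteinPolynomial
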