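import Fermat.Agent.BernsteinPolynomial.Inequality
import Mathlib.Algebra.CharP.Algebra
import Mathlib.Algebra.MvPolynomial.PDeriv
import Mathlib.Algebra.TrivSqZeroExt.Basic
import Mathlib.Algebra.Polynomial.AlgebraMap
import Mathlib.RingTheory.Localization.Away.Basic
import Mathlib.RingTheory.Localization.FractionRing
import Mathlib.RingTheory.Localization.Integer
import Mathlib.RingTheory.MvPolynomial.Basic
import Mathlib.Tactic.LinearCombination

/-!
# Existence of the polynomial of Bernstein and Sato

The operators `∂ᵢ` act on `K[x][1/f] · f ^ s`, `K = k(s)`, by `∂ᵢ + s ∂ᵢf / f`. This module has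
finite length, so that `f ^ k f ^ s` lies in the submodule generated by `f ^ (k + 1) f ^ s` for some
`k`. Clearing denominators gives the functional equation.
-/

set_option autoImplicit false

noncomputable section

open MvPolynomial

namespace Fermat.Agent.BernsteinPolynomial

variable {k : Type*} [Field k] {n : ℕ}

/-- Iterated partial derivative along a word. -/
def iterPderiv {R : Type*} [CommRing R] (w : List (Fin n)) (g : MvPolynomial (Fin n) R) :
    MvPolynomial (Fin n) R :=
  w.foldr (fun i h => pderiv i h) g

/-- `Q w` with `∂^w (f ^ m) = f ^ (m - |w|) * Q w (m)`. -/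
def numer (f : MvPolynomial (Fin n) k) : List (Fin n) → MvPolynomial (Fin n) (Polynomial k)
  | [] => 1
  | i :: w => map Polynomial.C f * pderiv i (numer f w) +
      (C Polynomial.X - (w.length : MvPolynomial (Fin n) (Polynomial k))) * numer f w *
        pderiv i (map Polynomial.C f)

theorem map_eval_C (m : k) (f : MvPolynomial (Fin n) k) :
    map (Polynomial.evalRingHom m) (map Polynomial.C f) = f := by
  rw [map_map, show (Polynomial.evalRingHom m).comp Polynomial.C = RingHom.id k from
    RingHom.ext fun x => Polynomial.eval_C, map_id]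

/-- The identity defining `numer`, for natural exponents. -/
theorem iterPderiv_pow (f : MvPolynomial (Fin n) k) (m : ℕ) (w : List (Fin n)) :
    iterPderiv w (f ^ m) * f ^ w.length =
      f ^ m * map (Polynomial.evalRingHom (m : k)) (numer f w) := by
  induction w with
  | nil => simp [iterPderiv, numer]
  | cons i w ih =>
    have h : pderiv i (iterPderiv w (f ^ m) * f ^ w.length) =
        pderiv i (f ^ m * map (Polynomial.evalRingHom (m : k)) (numer f w)) := by rw [ih]
    rw [pderiv_mul, pderiv_mul, pderiv_pow, pderiv_pow, pderiv_map] at h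
    set G := iterPderiv w (f ^ m) with hG
    have hlen : (w.length : MvPolynomial (Fin n) k) * f ^ (w.length - 1) * f =
        (w.length : MvPolynomial (Fin n) k) * f ^ w.length := by
      rcases w.length with _ | l
      · simp
      · rw [mul_assoc, ← pow_succ, Nat.add_sub_cancel]
    have hm : (m : MvPolynomial (Fin n) k) * f ^ (m - 1) * f =
        (m : MvPolynomial (Fin n) k) * f ^ m := by
      rcases m with _ | m
      · simp
      · rw [mul_assoc, ← pow_succ, Nat.add_sub_cancel]
    change pderiv i G * f ^ (w.length + 1) = _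
    simp only [numer, map_add, map_mul, map_sub, map_natCast, map_C, Polynomial.coe_evalRingHom,
      Polynomial.eval_X, ← pderiv_map, map_eval_C]
    rw [pderiv_map] at *
    linear_combination f * h - (G * pderiv i f) * hlen +
      (map (Polynomial.evalRingHom (m : k)) (numer f w) * pderiv i f) * hm -
      ((w.length : MvPolynomial (Fin n) k) * pderiv i f) * ih

variable (k) in
/-- The field `k(s)`. -/
abbrev Coeff := FractionRing (Polynomial k)

/-- `f` with coefficients in `k(s)`. -/
def fK (f : MvPolynomial (Fin n) k) : MvPolynomial (Fin n) (Coeff k) :=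
  map (algebraMap (Polynomial k) (Coeff k)) (map Polynomial.C f)

variable (f : MvPolynomial (Fin n) k)

/-- The module `k(s)[x][1/f] f^s`. -/
abbrev Twisted := Localization.Away (fK f)

/-- The inclusion of `k(s)[x]`. -/
abbrev incl : MvPolynomial (Fin n) (Coeff k) →+* Twisted f := algebraMap _ _

/-- The inclusion of `k[s][x]`. -/
def inclPoly : MvPolynomial (Fin n) (Polynomial k) →+* Twisted f :=
  (incl f).comp (map (algebraMap (Polynomial k) (Coeff k)))

/-- The inverse of `f`. -/
abbrev finv : Twisted f := IsLocalization.Away.invSelf (fK f)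

theorem f_mul_finv : incl f (fK f) * finv f = 1 := IsLocalization.Away.mul_invSelf _

/-- `pderiv` as a map to dual numbers. -/
def dualHom (i : Fin n) :
    MvPolynomial (Fin n) (Coeff k) →+* TrivSqZeroExt (Twisted f) (Twisted f) where
  toFun g := TrivSqZeroExt.inl (incl f g) + TrivSqZeroExt.inr (incl f (pderiv i g))
  map_one' := by simp
  map_mul' g h := by
    ext
    · simp
    · simp; ring
  map_zero' := by simp
  map_add' g h := by
    ext <;> simp

theorem isUnit_dualHom (i : Fin n) : IsUnit (dualHom f i (fK f)) := by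
  rw [TrivSqZeroExt.isUnit_iff_isUnit_fst]
  simpa [dualHom] using IsLocalization.Away.algebraMap_isUnit (fK f)

/-- The derivation `∂ᵢ` of the localisation. -/
def deriv (i : Fin n) (v : Twisted f) : Twisted f :=
  (IsLocalization.Away.lift (fK f) (isUnit_dualHom f i) v).snd

theorem deriv_incl (i : Fin n) (g : MvPolynomial (Fin n) (Coeff k)) :
    deriv f i (incl f g) = incl f (pderiv i g) := by
  simp [deriv, dualHom]

theorem fst_lift (i : Fin n) (v : Twisted f) :
    (IsLocalization.Away.lift (fK f) (isUnit_dualHom f i) v).fst = v := by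
  have h : (TrivSqZeroExt.fstHom (Twisted f) (Twisted f) (Twisted f)).toRingHom.comp
      (IsLocalization.Away.lift (fK f) (isUnit_dualHom f i)) = RingHom.id _ := by
    refine IsLocalization.ringHom_ext (Submonoid.powers (fK f)) (RingHom.ext fun g => ?_)
    simp [dualHom]
  exact RingHom.congr_fun h v

theorem deriv_add (i : Fin n) (u v : Twisted f) :
    deriv f i (u + v) = deriv f i u + deriv f i v := by simp [deriv]

theorem deriv_mul (i : Fin n) (u v : Twisted f) :
    deriv f i (u * v) = u * deriv f i v + v * deriv f i u := by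
  simp [deriv, fst_lift]
  ring

theorem smul_eq (c : Coeff k) (v : Twisted f) : c • v = incl f (C c) * v := by
  rw [Algebra.smul_def, IsScalarTower.algebraMap_apply (Coeff k) (MvPolynomial (Fin n) (Coeff k))]
  rfl

/-- The twisted derivation `∂ᵢ + s ∂ᵢf / f`. -/
def nabla (i : Fin n) : Module.End (Coeff k) (Twisted f) where
  toFun v := deriv f i v +
    inclPoly f (C Polynomial.X * pderiv i (map Polynomial.C f)) * finv f * v
  map_add' u v := by rw [deriv_add]; ring
  map_smul' c v := by
    simp only [RingHom.id_apply, smul_eq, deriv_mul, deriv_incl, pderiv_C, map_zero, mul_zero,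
      add_zero]
    ring

theorem nabla_apply (i : Fin n) (v : Twisted f) : nabla f i v = deriv f i v +
    inclPoly f (C Polynomial.X * pderiv i (map Polynomial.C f)) * finv f * v := rfl

theorem nabla_mul (i : Fin n) (u v : Twisted f) :
    nabla f i (u * v) = deriv f i u * v + u * nabla f i v := by
  rw [nabla_apply, nabla_apply, deriv_mul]; ring

theorem deriv_inclPoly (i : Fin n) (g : MvPolynomial (Fin n) (Polynomial k)) :
    deriv f i (inclPoly f g) = inclPoly f (pderiv i g) := by
  rw [inclPoly, RingHom.comp_apply, deriv_incl, pderiv_map]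
  rfl

/-- The element `f` of the module. -/
abbrev ftop : Twisted f := inclPoly f (map Polynomial.C f)

theorem ftop_mul_finv : ftop f * finv f = 1 := f_mul_finv f

theorem ftop_mul_nabla_pow (i : Fin n) (j : ℕ) :
    ftop f * nabla f i (ftop f ^ j) =
      inclPoly f ((C Polynomial.X + (j : MvPolynomial (Fin n) (Polynomial k))) *
        pderiv i (map Polynomial.C f)) * ftop f ^ j := by
  rw [nabla_apply, ← map_pow, deriv_inclPoly, pderiv_pow, mul_add,
    show ∀ a b : Twisted f, ftop f * (a * finv f * b) = ftop f * finv f * (a * b) from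
      fun a b => by ring, ftop_mul_finv, one_mul]
  rcases j with _ | j
  · simp
  · rw [Nat.add_sub_cancel, ← map_mul, ← map_mul, ← map_add, ← map_mul]
    congr 1
    rw [pow_succ]
    ring

/-- The word operator. -/
def nablaWord (w : List (Fin n)) : Module.End (Coeff k) (Twisted f) := (w.map (nabla f)).prod

/-- Substituting `s + j` for `s`. -/
def shiftS (c : k) : Polynomial k →+* Polynomial k :=
  (Polynomial.aeval (Polynomial.X + Polynomial.C c)).toRingHom

theorem nablaWord_pow (j : ℕ) (w : List (Fin n)) :
    nablaWord f w (ftop f ^ j) * ftop f ^ w.length =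
      ftop f ^ j * inclPoly f (map (shiftS (j : k)) (numer f w)) := by
  induction w with
  | nil => simp [nablaWord, numer]
  | cons i w ih =>
    set G := nablaWord f w (ftop f ^ j) with hG
    set Q := map (shiftS (j : k)) (numer f w) with hQ
    have h : ftop f * nabla f i (G * ftop f ^ w.length) =
        ftop f * nabla f i (inclPoly f Q * ftop f ^ j) := by rw [ih, mul_comm (inclPoly f Q)]
    rw [mul_comm G, nabla_mul, nabla_mul, mul_add, mul_add, deriv_inclPoly,
      mul_left_comm (ftop f) (inclPoly f Q), ftop_mul_nabla_pow, ← map_pow, deriv_inclPoly,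
      pderiv_pow] at h
    have hlen : (w.length : Twisted f) * ftop f ^ (w.length - 1) * ftop f =
        (w.length : Twisted f) * ftop f ^ w.length := by
      rcases w.length with _ | l
      · simp
      · rw [mul_assoc, ← pow_succ, Nat.add_sub_cancel]
    have hshift : map (shiftS (j : k)) (map Polynomial.C f) = map Polynomial.C f := by
      rw [map_map, show (shiftS (j : k)).comp Polynomial.C = Polynomial.C from
        RingHom.ext fun x => by simp [shiftS]]
    have hX : shiftS (j : k) Polynomial.X = Polynomial.X + (j : Polynomial k) := by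
      simp [shiftS]
    change nabla f i G * ftop f ^ (w.length + 1) = _
    simp only [numer, map_add, map_mul, map_sub, map_natCast, map_C, hX, hshift, ← pderiv_map,
      map_pow] at h ⊢
    linear_combination h - (G * inclPoly f (pderiv i (map Polynomial.C f))) * hlen -
      ((w.length : Twisted f) * inclPoly f (pderiv i (map Polynomial.C f))) * ih

/-- Multiplication operators times word operators span the algebra of differential operators. -/
def opSpan : Submodule (Coeff k) (Module.End (Coeff k) (Twisted f)) :=
  Submodule.span (Coeff k) (Set.range fun p : MvPolynomial (Fin n) (Polynomial k) × List (Fin n) =>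
    LinearMap.mulLeft (Coeff k) (inclPoly f p.1) * nablaWord f p.2)

theorem mulLeft_mem_opSpan (a : MvPolynomial (Fin n) (Polynomial k))
    {T : Module.End (Coeff k) (Twisted f)} (hT : T ∈ opSpan f) :
    LinearMap.mulLeft (Coeff k) (inclPoly f a) * T ∈ opSpan f := by
  induction hT using Submodule.span_induction with
  | mem T hT =>
    obtain ⟨⟨b, w⟩, rfl⟩ := hT
    refine Submodule.subset_span ⟨(a * b, w), LinearMap.ext fun v => ?_⟩
    simp
  | zero => simp
  | add T T' _ _ hT hT' => rw [mul_add]; exact add_mem hT hT'
  | smul c T _ hT => rw [mul_smul_comm]; exact Submodule.smul_mem _ c hT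

theorem nabla_mem_opSpan (i : Fin n) {T : Module.End (Coeff k) (Twisted f)} (hT : T ∈ opSpan f) :
    nabla f i * T ∈ opSpan f := by
  induction hT using Submodule.span_induction with
  | mem T hT =>
    obtain ⟨⟨b, w⟩, rfl⟩ := hT
    have h : nabla f i * (LinearMap.mulLeft (Coeff k) (inclPoly f b) * nablaWord f w) =
        LinearMap.mulLeft (Coeff k) (inclPoly f (pderiv i b)) * nablaWord f w +
          LinearMap.mulLeft (Coeff k) (inclPoly f b) * nablaWord f (i :: w) :=
      LinearMap.ext fun v => by simp [nablaWord, nabla_mul, deriv_inclPoly]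
    rw [h]
    exact add_mem (Submodule.subset_span ⟨(pderiv i b, w), rfl⟩)
      (Submodule.subset_span ⟨(b, i :: w), rfl⟩)
  | zero => simp
  | add T T' _ _ hT hT' => rw [mul_add]; exact add_mem hT hT'
  | smul c T _ hT => rw [mul_smul_comm]; exact Submodule.smul_mem _ c hT

theorem mul_mem_opSpan {T T' : Module.End (Coeff k) (Twisted f)} (hT : T ∈ opSpan f)
    (hT' : T' ∈ opSpan f) : T * T' ∈ opSpan f := by
  induction hT using Submodule.span_induction with
  | mem T hT =>
    obtain ⟨⟨b, w⟩, rfl⟩ := hT
    rw [mul_assoc]
    refine mulLeft_mem_opSpan f b ?_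
    change nablaWord f w * T' ∈ opSpan f
    clear b
    induction w with
    | nil => simpa [nablaWord] using hT'
    | cons i w ih =>
      rw [nablaWord, List.map_cons, List.prod_cons, mul_assoc]
      exact nabla_mem_opSpan f i ih
  | zero => simp
  | add T U _ _ hT hU => rw [add_mul]; exact add_mem hT hU
  | smul c T _ hT => rw [smul_mul_assoc]; exact Submodule.smul_mem _ c hT

/-- `g ↦ g / f ^ i`. -/
def divPow (i : ℕ) : MvPolynomial (Fin n) (Coeff k) →ₗ[Coeff k] Twisted f where
  toFun g := incl f g * finv f ^ i
  map_add' g h := by rw [map_add, add_mul]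
  map_smul' c g := by
    rw [RingHom.id_apply, smul_eq, smul_eq_C_mul, map_mul, mul_assoc]

/-- The filtration. -/
def filt (i : ℕ) : Submodule (Coeff k) (Twisted f) :=
  (restrictTotalDegree (Fin n) (Coeff k) ((f.totalDegree + 1) * i)).map (divPow f i)

instance (i : ℕ) : Module.Finite (Coeff k) (filt f i) := Module.Finite.map _ _

theorem totalDegree_fK_le : (fK f).totalDegree ≤ f.totalDegree :=
  (Finset.sup_mono (support_map_subset _ _)).trans (Finset.sup_mono (support_map_subset _ _))

theorem filt_mono : Monotone (filt f) := monotone_nat_of_le_succ fun i => by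
  rintro _ ⟨g, hg, rfl⟩
  refine ⟨g * fK f, ?_, ?_⟩
  · rw [SetLike.mem_coe, mem_restrictTotalDegree] at hg ⊢
    refine (totalDegree_mul _ _).trans ?_
    have := totalDegree_fK_le f
    rw [mul_add, mul_one]
    omega
  · change incl f (g * fK f) * finv f ^ (i + 1) = incl f g * finv f ^ i
    rw [map_mul, pow_succ,
      show ∀ a b c d : Twisted f, a * b * (c * d) = a * c * (b * d) from fun a b c d => by ring,
      f_mul_finv, mul_one]

theorem exists_mem_filt (v : Twisted f) : ∃ i, v ∈ filt f i := by
  obtain ⟨p, g, hg⟩ := IsLocalization.Away.surj (fK f) v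
  set d := g.totalDegree with hd
  refine ⟨p + d, g * fK f ^ d, ?_, ?_⟩
  · rw [SetLike.mem_coe, mem_restrictTotalDegree]
    refine (totalDegree_mul _ _).trans ((Nat.add_le_add_left (totalDegree_pow _ _) _).trans ?_)
    have := Nat.mul_le_mul_left d (totalDegree_fK_le f)
    rw [← hd]
    nlinarith
  · change incl f (g * fK f ^ d) * finv f ^ (p + d) = v
    rw [map_mul, map_pow, ← hg,
      show ∀ a b c : Twisted f, a * b ^ p * b ^ d * c ^ (p + d) = a * (b * c) ^ (p + d) from
        fun a b c => by ring, f_mul_finv, one_pow, mul_one]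

theorem finrank_filt_le (i : ℕ) :
    Module.finrank (Coeff k) (filt f i) ≤ (f.totalDegree + 1) ^ n * (i + 1) ^ n := by
  classical
  set N := (f.totalDegree + 1) * i with hN
  refine (Submodule.finrank_map_le _ _).trans ?_
  let φ : restrictTotalDegree (Fin n) (Coeff k) N →ₗ[Coeff k]
      ((Fin n → Fin (N + 1)) → Coeff k) :=
    LinearMap.pi fun e => (lcoeff (Coeff k) (Finsupp.equivFunOnFinite.symm fun j => (e j : ℕ))).comp
      (Submodule.subtype _)
  have hφ : Function.Injective φ := fun g g' hgg => by
    refine Subtype.ext (MvPolynomial.ext _ _ fun m => ?_)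
    by_contra hm
    have hdeg : (m.sum fun _ e => e) ≤ N := by
      rcases eq_or_ne (coeff m (g : MvPolynomial (Fin n) (Coeff k))) 0 with h0 | h0
      · exact (le_totalDegree (mem_support_iff.2 fun h => hm (h0.trans h.symm))).trans
          ((mem_restrictTotalDegree _ _ _).1 g'.2)
      · exact (le_totalDegree (mem_support_iff.2 h0)).trans
          ((mem_restrictTotalDegree _ _ _).1 g.2)
    have hle : ∀ j, m j < N + 1 := fun j => by
      refine Nat.lt_succ_iff.2 (le_trans ?_ hdeg)
      rw [Finsupp.sum_fintype _ _ fun _ => rfl]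
      exact Finset.single_le_sum (fun _ _ => Nat.zero_le _) (Finset.mem_univ j)
    have := congrFun hgg fun j => ⟨m j, hle j⟩
    exact hm (by simpa [φ] using this)
  refine (LinearMap.finrank_le_finrank_of_injective hφ).trans ?_
  rw [Module.finrank_pi, Fintype.card_fun, Fintype.card_fin, Fintype.card_fin, ← mul_pow]
  exact Nat.pow_le_pow_left (by rw [hN]; nlinarith) n

theorem map_filt_mulLeft_X (j : Fin n) (i : ℕ) :
    (filt f i).map (LinearMap.mulLeft (Coeff k) (incl f (X j))) ≤ filt f (i + 1) := by
  rintro _ ⟨_, ⟨g, hg, rfl⟩, rfl⟩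
  refine ⟨X j * (g * fK f), ?_, ?_⟩
  · rw [SetLike.mem_coe, mem_restrictTotalDegree] at hg ⊢
    refine (totalDegree_mul _ _).trans ((Nat.add_le_add_left (totalDegree_mul _ _) _).trans ?_)
    have := totalDegree_fK_le f
    rw [totalDegree_X, mul_add, mul_one]
    omega
  · change incl f (X j * (g * fK f)) * finv f ^ (i + 1) = incl f (X j) * (incl f g * finv f ^ i)
    rw [map_mul, map_mul, pow_succ,
      show ∀ a b c d e : Twisted f, a * (b * c) * (d * e) = a * (b * d) * (c * e) from
        fun a b c d e => by ring, f_mul_finv, mul_one]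

theorem totalDegree_pderiv_le {R : Type*} [CommRing R] (j : Fin n) (g : MvPolynomial (Fin n) R) :
    (pderiv j g).totalDegree ≤ g.totalDegree - 1 := by
  classical
  refine Finset.sup_le fun m hm => ?_
  rw [mem_support_iff, coeff_pderiv] at hm
  have := le_totalDegree (mem_support_iff.2 (left_ne_zero_of_mul hm))
  rw [Finsupp.sum_add_index' (fun _ => rfl) fun _ _ _ => rfl, Finsupp.sum_single_index rfl] at this
  omega

theorem map_filt_nabla (j : Fin n) (i : ℕ) :
    (filt f i).map (nabla f j) ≤ filt f (i + 1) := by
  rintro _ ⟨_, ⟨g, hg, rfl⟩, rfl⟩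
  refine ⟨pderiv j g * fK f + C (algebraMap (Polynomial k) (Coeff k) Polynomial.X -
    (i : Coeff k)) * (g * pderiv j (fK f)), ?_, ?_⟩
  · rw [SetLike.mem_coe, mem_restrictTotalDegree] at hg ⊢
    refine (totalDegree_add _ _).trans (max_le ?_ ?_)
    · refine (totalDegree_mul _ _).trans ?_
      have h1 := totalDegree_fK_le f
      have h2 := totalDegree_pderiv_le j g
      rw [mul_add, mul_one]
      omega
    · refine (totalDegree_mul _ _).trans ((Nat.add_le_add_left (totalDegree_mul _ _) _).trans ?_)
      have h1 := totalDegree_fK_le f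
      have h2 := totalDegree_pderiv_le j (fK f)
      rw [totalDegree_C, mul_add, mul_one]
      omega
  · change incl f _ * finv f ^ (i + 1) = nabla f j (incl f g * finv f ^ i)
    have hinv : deriv f j (finv f ^ i) =
        -((i : Twisted f) * incl f (pderiv j (fK f)) * finv f ^ (i + 1)) := by
      have h0 : deriv f j (incl f (fK f ^ i) * finv f ^ i) = 0 := by
        rw [map_pow, ← mul_pow, f_mul_finv, one_pow, ← map_one (incl f), deriv_incl, pderiv_one,
          map_zero]
      rw [deriv_mul, deriv_incl, pderiv_pow, map_mul, map_mul, map_pow, map_natCast, map_pow] at h0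
      have h1 : incl f (fK f) ^ i * finv f ^ i = 1 := by rw [← mul_pow, f_mul_finv, one_pow]
      have h2 : (i : Twisted f) * incl f (fK f) ^ (i - 1) * finv f ^ i * finv f ^ i =
          (i : Twisted f) * finv f ^ (i + 1) := by
        rcases i with _ | i
        · simp
        · rw [Nat.add_sub_cancel]
          have : incl f (fK f) ^ i * finv f ^ i = 1 := by rw [← mul_pow, f_mul_finv, one_pow]
          linear_combination (((i + 1 : ℕ) : Twisted f) * finv f ^ (i + 2)) * this
      linear_combination finv f ^ i * h0 - deriv f j (finv f ^ i) * h1 -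
        incl f (pderiv j (fK f)) * h2
    rw [nabla_apply, deriv_mul, deriv_incl, hinv, inclPoly, RingHom.comp_apply, map_mul, map_C,
      map_add, map_mul, map_mul, map_mul, map_sub, map_sub, map_natCast, map_natCast, ← pderiv_map]
    change _ = _ + incl f (C _ * pderiv j (fK f)) * _ * _
    rw [map_mul]
    linear_combination (incl f (pderiv j g) * finv f ^ i) * f_mul_finv f

/-- **Bernstein**: the functional equation. -/
theorem exists_functional_equation [CharZero k] (f : MvPolynomial (Fin n) k) (hf : f ≠ 0) :
    ∃ b : Polynomial k, b ≠ 0 ∧ ∃ (r : ℕ) (a : Fin r → MvPolynomial (Fin n) (Polynomial k))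
      (w : Fin r → List (Fin n)), ∀ m : ℕ,
        ∑ j, map (Polynomial.evalRingHom (m : k)) (a j) * iterPderiv (w j) (f ^ (m + 1)) =
          C (b.eval (m : k)) * f ^ m := by
  classical
  have : CharZero (Coeff k) :=
    charZero_of_injective_algebraMap (IsFractionRing.injective (Polynomial k) (Coeff k))
  let N : ℕ → Submodule (Coeff k) (Twisted f) := fun j =>
    (opSpan f).map (LinearMap.applyₗ (ftop f ^ j))
  have hXmem : ∀ j, LinearMap.mulLeft (Coeff k) (incl f (X j)) ∈ opSpan f := fun j =>
    Submodule.subset_span ⟨(X j, []), LinearMap.ext fun v => by simp [nablaWord, inclPoly]⟩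
  have hstable : ∀ (U : Module.End (Coeff k) (Twisted f)), U ∈ opSpan f → ∀ j, ∀ v ∈ N j,
      U v ∈ N j := by
    rintro U hU j _ ⟨T, hT, rfl⟩
    exact ⟨U * T, mul_mem_opSpan f hU hT, rfl⟩
  have hnabla : ∀ i, nabla f i ∈ opSpan f := fun i =>
    Submodule.subset_span ⟨(1, [i]), LinearMap.ext fun v => by simp [nablaWord]⟩
  obtain ⟨j₀, hj₀⟩ := exists_chain_eq (n := n) (X := fun j => LinearMap.mulLeft (Coeff k)
      (incl f (X j))) (D := nabla f) (F := filt f)
    (fun i j => LinearMap.ext fun v => by
      simp only [LinearMap.sub_apply, Module.End.mul_apply, LinearMap.mulLeft_apply, nabla_mul,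
        deriv_incl]
      rcases eq_or_ne i j with rfl | hij
      · simp
      · simp [hij, pderiv_X_of_ne hij.symm])
    (fun i j => LinearMap.ext fun v => by simp [mul_left_comm])
    (filt_mono f) (map_filt_mulLeft_X f) (map_filt_nabla f)
    ((f.totalDegree + 1) ^ n) (exists_mem_filt f) (finrank_filt_le f) N
    (antitone_nat_of_succ_le fun j => by
      rintro _ ⟨T, hT, rfl⟩
      refine ⟨T * LinearMap.mulLeft (Coeff k) (ftop f), mul_mem_opSpan f hT
        (Submodule.subset_span ⟨(map Polynomial.C f, []), LinearMap.ext fun v => by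
          simp [nablaWord]⟩), ?_⟩
      simp [pow_succ'])
    (fun j i => hstable _ (hXmem i) j) (fun j i => hstable _ (hnabla i) j)
  obtain ⟨T, hT, hTeq⟩ := hj₀ (show ftop f ^ j₀ ∈ N j₀ from
    ⟨1, Submodule.subset_span ⟨(1, []), LinearMap.ext fun v => by simp [nablaWord]⟩, by simp⟩)
  change T (ftop f ^ (j₀ + 1)) = ftop f ^ j₀ at hTeq
  obtain ⟨c, rfl⟩ := Finsupp.mem_span_range_iff_exists_finsupp.1 hT
  obtain ⟨b, hb⟩ := IsLocalization.exist_integer_multiples (nonZeroDivisors (Polynomial k))
    c.support c
  have hb' : ∀ p ∈ c.support, ∃ e : Polynomial k,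
      algebraMap _ (Coeff k) e = algebraMap _ (Coeff k) (b : Polynomial k) * c p := fun p hp => by
    obtain ⟨e, he⟩ := hb p hp
    exact ⟨e, he.trans (Algebra.smul_def _ _)⟩
  choose! e he using hb'
  -- the equation in `k[s][x]`
  set L := c.support.sup fun p => p.2.length with hL
  set fA := map Polynomial.C f with hfA
  set S : MvPolynomial (Fin n) (Polynomial k) := ∑ p ∈ c.support,
    C (e p) * p.1 * fA ^ (L - p.2.length) * map (shiftS ((j₀ + 1 : ℕ) : k)) (numer f p.2) with hS
  have hinj : Function.Injective (inclPoly f) := by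
    simp only [inclPoly, RingHom.coe_comp]
    refine Function.Injective.comp
      (IsLocalization.injective (Twisted f) (M := Submonoid.powers (fK f)) ?_)
      (map_injective _ (IsFractionRing.injective (Polynomial k) (Coeff k)))
    refine powers_le_nonZeroDivisors_of_noZeroDivisors ?_
    intro h0
    refine hf ?_
    rw [fK, map_eq_zero_iff _ (map_injective _ (IsFractionRing.injective _ _)),
      map_eq_zero_iff _ (map_injective _ Polynomial.C_injective)] at h0
    exact h0
  have hfA0 : fA ≠ 0 := fun h => hf
    ((map_eq_zero_iff _ (map_injective _ Polynomial.C_injective)).1 h)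
  have hbig : fA ^ (j₀ + 1) * S = C (b : Polynomial k) * fA ^ (j₀ + L) := by
    refine hinj ?_
    have h1 := congrArg (fun v => inclPoly f (C (b : Polynomial k)) * v * ftop f ^ L) hTeq
    simp only [Finsupp.sum, LinearMap.sum_apply, LinearMap.smul_apply, Module.End.mul_apply,
      LinearMap.mulLeft_apply, Finset.mul_sum, Finset.sum_mul] at h1
    simp only [map_mul, map_pow, pow_add _ j₀ L, ← mul_assoc]
    rw [← h1, hS, map_sum, Finset.mul_sum]
    refine Finset.sum_congr rfl fun p hp => ?_
    have hlen : p.2.length ≤ L := Finset.le_sup (f := fun p => p.2.length) hp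
    rw [smul_eq, map_mul, map_mul, map_mul, map_pow]
    have hC : inclPoly f (C (b : Polynomial k)) * incl f (C (c p)) = inclPoly f (C (e p)) := by
      simp only [inclPoly, RingHom.comp_apply, map_C, ← map_mul, he p hp]
    have hw := nablaWord_pow f (j₀ + 1) p.2
    rw [show ftop f ^ L = ftop f ^ p.2.length * ftop f ^ (L - p.2.length) by
      rw [← pow_add, Nat.add_sub_cancel' hlen]]
    linear_combination (-(inclPoly f (C (e p)) * inclPoly f p.1 * ftop f ^ (L - p.2.length))) * hw -
      (inclPoly f p.1 * nablaWord f p.2 (ftop f ^ (j₀ + 1)) *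
        ftop f ^ p.2.length * ftop f ^ (L - p.2.length)) * hC
  have hkey : fA * S = C (b : Polynomial k) * fA ^ L := by
    refine mul_left_cancel₀ (pow_ne_zero j₀ hfA0) ?_
    rw [← mul_assoc, ← pow_succ, hbig, pow_add]
    ring
  refine ⟨(shiftS (-(j₀ : k))) (b : Polynomial k), ?_, c.support.card,
    fun j => map (shiftS (-(j₀ : k))) (C (e (c.support.equivFin.symm j)) *
      (c.support.equivFin.symm j : MvPolynomial (Fin n) (Polynomial k) × List (Fin n)).1),
    fun j => (c.support.equivFin.symm j : MvPolynomial (Fin n) (Polynomial k) × List (Fin n)).2,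
    fun m => ?_⟩
  · have hinjS : Function.Injective (shiftS (-(j₀ : k))) := fun x y h => by
      have := congrArg (shiftS (j₀ : k)) h
      simpa [shiftS, ← Polynomial.comp_eq_aeval, Polynomial.comp_assoc] using this
    exact (map_ne_zero_iff _ hinjS).2 (nonZeroDivisors.coe_ne_zero b)
  · rw [Equiv.sum_comp c.support.equivFin.symm (fun p : c.support =>
      map (Polynomial.evalRingHom (m : k)) (map (shiftS (-(j₀ : k))) (C (e p) *
        (p : MvPolynomial (Fin n) (Polynomial k) × List (Fin n)).1)) *
          iterPderiv (p : MvPolynomial (Fin n) (Polynomial k) × List (Fin n)).2 (f ^ (m + 1))),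
      Finset.sum_coe_sort c.support (fun p => map (Polynomial.evalRingHom (m : k))
        (map (shiftS (-(j₀ : k))) (C (e p) * p.1)) * iterPderiv p.2 (f ^ (m + 1)))]
    set ρ : Polynomial k →+* k := Polynomial.evalRingHom ((m : k) - j₀) with hρ
    have hρshift : (Polynomial.evalRingHom (m : k)).comp (shiftS (-(j₀ : k))) = ρ :=
      RingHom.ext fun x => by
        simp [shiftS, hρ, sub_eq_add_neg, ← Polynomial.comp_eq_aeval]
    simp only [map_map, hρshift]
    rw [show ((shiftS (-(j₀ : k))) (b : Polynomial k)).eval (m : k) = ρ b from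
      RingHom.congr_fun hρshift (b : Polynomial k)]
    refine mul_right_cancel₀ (pow_ne_zero L hf) ?_
    have h := congrArg (map ρ) hkey
    have hfρ : map ρ fA = f := map_eval_C _ f
    simp only [hS, map_mul, map_pow, map_sum, map_C, hfρ, Finset.mul_sum] at h
    rw [Finset.sum_mul, show C (ρ (b : Polynomial k)) * f ^ m * f ^ L =
      C (ρ (b : Polynomial k)) * f ^ L * f ^ m by ring, ← h, Finset.sum_mul]
    refine Finset.sum_congr rfl fun p hp => ?_
    have hlen : p.2.length ≤ L := Finset.le_sup (f := fun p => p.2.length) hp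
    have hw := iterPderiv_pow f (m + 1) p.2
    have hev : map ρ (map (shiftS ((j₀ + 1 : ℕ) : k)) (numer f p.2)) =
        map (Polynomial.evalRingHom ((m + 1 : ℕ) : k)) (numer f p.2) := by
      rw [map_map, show ρ.comp (shiftS ((j₀ + 1 : ℕ) : k)) =
        Polynomial.evalRingHom ((m + 1 : ℕ) : k) from Polynomial.ringHom_ext
          (fun a => by simp [shiftS, hρ]) (by simp [shiftS, hρ]; ring)]
    rw [hev, map_mul, map_C]
    rw [show f ^ L = f ^ p.2.length * f ^ (L - p.2.length) by
      rw [← pow_add, Nat.add_sub_cancel' hlen]]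
    linear_combination (C (ρ (e p)) * map ρ p.1 * f ^ (L - p.2.length)) * hw

end Fermat.Agent.BernsteinPolynomial
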